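import Fermat.Agent.Lib.RR.Zeros

/-!
# RR library, layer L3.1: Riemann's theorem `deg D - ℓ(D) ≤ γ`  (helper860)

Exact statement of `exists_riemann_bound` of the skeleton (`Riemann.lean`, helper320), proved from
layers L1 (`Basic`) and L2 (`Zeros`, poles of `x` number at most `[F : K(x)]`).
-/

set_option autoImplicit false

noncomputable section

open AlgebraicCurve

namespace Fermat.Agent.Lib.RR.H860

open Fermat.Agent.Lib.RR

variable {K F : Type*} [Field K] [Field F] [Algebra K F]

/-- The positive part of a divisor. -/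
def posPartDiv (A : Divisor K F) : Divisor K F :=
  Finsupp.mapRange (fun n : ℤ => max 0 n) (by simp) A

theorem posPartDiv_apply (A : Divisor K F) (v : Place K F) : posPartDiv A v = max 0 (A v) := by
  simp [posPartDiv]

theorem le_posPartDiv (A : Divisor K F) : A ≤ posPartDiv A := by
  rw [Finsupp.le_def]
  intro v
  rw [posPartDiv_apply]
  exact le_max_right _ _

section FF1

variable [hFF : FF1 K F]

/-- The pole divisor `(z)_∞` of a nonzero function. -/
def poleDiv (z : F) (hz : z ≠ 0) : Divisor K F :=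
  Finsupp.mapRange (fun n : ℤ => max 0 (-n)) (by simp) (divOf (K := K) z hz)

theorem poleDiv_apply (z : F) (hz : z ≠ 0) (v : Place K F) :
    poleDiv (K := K) z hz v = max 0 (-v.ord z) := by
  simp [poleDiv, divOf_apply]

theorem poleDiv_nonneg (z : F) (hz : z ≠ 0) :
    0 ≤ poleDiv (K := K) z hz := by
  rw [Finsupp.le_def]
  intro v
  rw [poleDiv_apply]
  simp

theorem neg_ord_le_poleDiv (z : F) (hz : z ≠ 0) (v : Place K F) :
    -v.ord z ≤ poleDiv (K := K) z hz v := by
  rw [poleDiv_apply]
  exact le_max_right _ _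

/-- `deg (x)_∞ ≤ [F : K(x)]`. -/
theorem degree_poleDiv_le (x : F) (hx : x ≠ 0)
    [FiniteDimensional (IntermediateField.adjoin K {x}) F] :
    Divisor.degree (poleDiv (K := K) x hx) ≤
      (Module.finrank (IntermediateField.adjoin K {x}) F : ℤ) := by
  rw [degree_eq_sum]
  have h := sum_neg_ord_le_finrank (K := K) (F := F) (fun v => deg_eq_one v) x
    (poleDiv (K := K) x hx).support (fun v hv => by
      rw [Finsupp.mem_support_iff, poleDiv_apply] at hv
      by_contra hcon
      apply hv
      rw [max_eq_left]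
      omega)
  refine le_trans (le_of_eq ?_) h
  refine Finset.sum_congr rfl fun v hv => ?_
  rw [deg_eq_one v, poleDiv_apply]
  rw [Finsupp.mem_support_iff, poleDiv_apply] at hv
  have : 0 < -v.ord x := by
    by_contra hcon
    apply hv
    rw [max_eq_left]
    omega
  rw [max_eq_right this.le]
  simp


/-- The divisor `C = ∑_j (u_j)_∞`. -/
def poleSum {ι : Type*} [Fintype ι] (u : ι → F) (hu : ∀ j, u j ≠ 0) : Divisor K F :=
  ∑ j, poleDiv (K := K) (u j) (hu j)

theorem poleSum_nonneg {ι : Type*} [Fintype ι] (u : ι → F) (hu : ∀ j, u j ≠ 0) :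
    0 ≤ poleSum (K := K) u hu :=
  Finset.sum_nonneg fun j _ => poleDiv_nonneg (u j) (hu j)

theorem neg_ord_le_poleSum {ι : Type*} [Fintype ι] (u : ι → F) (hu : ∀ j, u j ≠ 0) (j : ι)
    (v : Place K F) : -v.ord (u j) ≤ poleSum (K := K) u hu v := by
  rw [poleSum, Finsupp.finset_sum_apply]
  refine le_trans (neg_ord_le_poleDiv (u j) (hu j) v) ?_
  exact Finset.single_le_sum (f := fun i => poleDiv (K := K) (u i) (hu i) v)
    (fun i _ => by simpa using Finsupp.le_def.mp (poleDiv_nonneg (K := K) (u i) (hu i)) v)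
    (Finset.mem_univ j)

/-- `x ^ i * u_j ∈ L(l (x)_∞ + C)` for `i ≤ l`. -/
theorem pow_mul_mem_L (x : F) (hx : x ≠ 0) {ι : Type*} [Fintype ι] (u : ι → F)
    (hu : ∀ j, u j ≠ 0) (l i : ℕ) (hi : i ≤ l) (j : ι) :
    x ^ i * u j ∈
      riemannRochSpace ((l : ℤ) • poleDiv (K := K) x hx + poleSum (K := K) u hu) := by
  rw [mem_L_iff]
  intro v
  right
  rw [v.ord_mul (pow_ne_zero i hx) (hu j), ord_pow]
  simp only [Finsupp.add_apply, Finsupp.smul_apply, smul_eq_mul]
  have h1 := neg_ord_le_poleDiv (K := K) x hx v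
  have h2 := neg_ord_le_poleSum (K := K) u hu j v
  have h3 : 0 ≤ poleDiv (K := K) x hx v := by
    simpa using Finsupp.le_def.mp (poleDiv_nonneg (K := K) x hx) v
  have hi' : (i : ℤ) ≤ l := by exact_mod_cast hi
  have h4 : -((l : ℤ) * poleDiv (K := K) x hx v) ≤ (i : ℤ) * v.ord x := by
    have h5 : (i : ℤ) * (-poleDiv (K := K) x hx v) ≤ (i : ℤ) * v.ord x :=
      mul_le_mul_of_nonneg_left (by omega) (by positivity)
    have h6 : (i : ℤ) * poleDiv (K := K) x hx v ≤ (l : ℤ) * poleDiv (K := K) x hx v :=
      mul_le_mul_of_nonneg_right hi' h3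
    linarith
  omega

/-- The elements `x ^ i * u_j` (`i ≤ l`, `u` a basis of `F` over `K(x)`) are linearly independent
over `K`. -/
theorem linearIndependent_pow_mul (x : F) (hx : Transcendental K x) {ι : Type*} [Fintype ι]
    (b : Module.Basis ι (IntermediateField.adjoin K {x}) F) (l : ℕ) :
    LinearIndependent K (fun p : Fin (l + 1) × ι => x ^ (p.1 : ℕ) * b p.2) := by
  classical
  rw [Fintype.linearIndependent_iff]
  intro c hc
  set gen : IntermediateField.adjoin K {x} := IntermediateField.AdjoinSimple.gen K x with hgen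
  have hgenx : (gen : F) = x := IntermediateField.AdjoinSimple.coe_gen K x
  -- regroup the relation
  have h1 : ∑ j, (∑ i : Fin (l + 1), c (i, j) • gen ^ (i : ℕ)) • b j = 0 := by
    rw [← hc, Fintype.sum_prod_type, Finset.sum_comm]
    refine Finset.sum_congr rfl fun j _ => ?_
    rw [Finset.sum_smul]
    refine Finset.sum_congr rfl fun i _ => ?_
    rw [smul_assoc]
    congr 1
  have h2 := Fintype.linearIndependent_iff.mp b.linearIndependent _ h1
  intro p
  obtain ⟨i, j⟩ := p
  have h3 := h2 j
  -- the polynomial with coefficients `c (·, j)`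
  have h4 : Polynomial.aeval x (∑ i : Fin (l + 1), Polynomial.monomial (i : ℕ) (c (i, j))) = 0 := by
    have h5 := congrArg (fun a : IntermediateField.adjoin K {x} => (a : F)) h3
    simp only [ZeroMemClass.coe_zero] at h5
    rw [map_sum]
    rw [← h5]
    push_cast
    refine Finset.sum_congr rfl fun i _ => ?_
    rw [Polynomial.aeval_monomial, hgenx, Algebra.smul_def]
  have h6 := (transcendental_iff.mp hx) _ h4
  have h7 := congrArg (fun q : Polynomial K => q.coeff (i : ℕ)) h6
  simp only [Polynomial.finset_sum_coeff, Polynomial.coeff_monomial, Polynomial.coeff_zero] at h7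
  rw [Finset.sum_eq_single i] at h7
  · simpa using h7
  · intro i' _ hne
    rw [if_neg]
    exact fun h => hne (Fin.ext h)
  · intro h
    exact absurd (Finset.mem_univ i) h


/-- `(l + 1) [F : K(x)] ≤ ℓ(l (x)_∞ + C)`. -/
theorem card_le_ell (x : F) (hx : Transcendental K x) (hx0 : x ≠ 0) {ι : Type*} [Fintype ι]
    (b : Module.Basis ι (IntermediateField.adjoin K {x}) F) (l : ℕ) :
    (l + 1) * Fintype.card ι ≤
      ell ((l : ℤ) • poleDiv (K := K) x hx0 + poleSum (K := K) (fun j => b j) fun j => b.ne_zero j) := by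
  classical
  have hli := linearIndependent_pow_mul x hx b l
  have hspan : Submodule.span K (Set.range fun p : Fin (l + 1) × ι => x ^ (p.1 : ℕ) * b p.2) ≤
      riemannRochSpace
        ((l : ℤ) • poleDiv (K := K) x hx0 + poleSum (K := K) (fun j => b j) fun j => b.ne_zero j) := by
    rw [Submodule.span_le]
    rintro _ ⟨p, rfl⟩
    exact pow_mul_mem_L x hx0 (fun j => b j) (fun j => b.ne_zero j) l p.1 (by have := p.1.2; omega) p.2
  have h1 := Submodule.finrank_mono hspan
  rw [finrank_span_eq_card hli] at h1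
  simpa [ell] using h1

/-- **L3.1** Riemann's theorem: `deg D - ℓ(D)` is bounded above. -/
theorem exists_riemann_bound (K F : Type*) [Field K] [Field F] [Algebra K F] [FF1 K F] :
    ∃ γ : ℤ, ∀ D : Divisor K F, Divisor.degree D - ell D ≤ γ := by
  classical
  obtain ⟨x, hx, hfin⟩ := FF1.exists_finite (K := K) (F := F)
  haveI := hfin
  have hx0 : x ≠ 0 := by
    rintro rfl
    exact hx (isAlgebraic_zero)
  set n : ℕ := Module.finrank (IntermediateField.adjoin K {x}) F with hn
  have hnpos : 0 < n := Module.finrank_pos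
  let b := Module.finBasis (IntermediateField.adjoin K {x}) F
  set B : Divisor K F := poleDiv (K := K) x hx0 with hB
  set C : Divisor K F := poleSum (K := K) (fun j => b j) (fun j => b.ne_zero j) with hC
  have hBdeg : Divisor.degree B ≤ n := degree_poleDiv_le x hx0
  have hB0 : 0 ≤ B := poleDiv_nonneg x hx0
  have hC0 : 0 ≤ C := poleSum_nonneg _ _
  -- the bound along the sequence `l B`
  have hseq : ∀ l : ℕ, ((l : ℤ) + 1) * n - Divisor.degree C ≤ ell ((l : ℤ) • B) := by
    intro l
    have h1 := card_le_ell x hx hx0 b l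
    rw [Fintype.card_fin] at h1
    have h2 := degree_sub_ell_mono (K := K) (F := F) (D := (l : ℤ) • B) (D' := (l : ℤ) • B + C)
      (le_add_of_nonneg_right hC0)
    rw [map_add] at h2
    have h3 : (((l + 1) * n : ℕ) : ℤ) ≤ ell ((l : ℤ) • B + C) := by exact_mod_cast h1
    push_cast at h3
    linarith
  have hseq' : ∀ l : ℕ, Divisor.degree ((l : ℤ) • B) - ell ((l : ℤ) • B) ≤
      Divisor.degree C - n := by
    intro l
    have h1 := hseq l
    have h2 : Divisor.degree ((l : ℤ) • B) = (l : ℤ) * Divisor.degree B := by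
      rw [map_zsmul, smul_eq_mul]
    have h3 : (l : ℤ) * Divisor.degree B ≤ (l : ℤ) * n :=
      mul_le_mul_of_nonneg_left hBdeg (by positivity)
    rw [h2]
    linarith
  refine ⟨Divisor.degree C - n, fun A => ?_⟩
  -- reduce to an effective divisor
  set A' : Divisor K F := posPartDiv A with hA'
  have hAA' : A ≤ A' := le_posPartDiv A
  refine le_trans (degree_sub_ell_mono hAA') ?_
  -- choose `l` large
  set l : ℕ := (Divisor.degree C + Divisor.degree A').toNat + 1 with hl
  have hl1 : Divisor.degree C + Divisor.degree A' < (l : ℤ) + 1 := by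
    have := Int.self_le_toNat (Divisor.degree C + Divisor.degree A')
    rw [hl]; push_cast; omega
  have h1 := hseq l
  have h2 := degree_sub_ell_mono (K := K) (F := F) (D := (l : ℤ) • B - A') (D' := (l : ℤ) • B)
    (by
      have hA'0 : 0 ≤ A' := by
        rw [Finsupp.le_def]; intro v; rw [hA', posPartDiv_apply]; simp
      exact sub_le_self _ hA'0)
  rw [map_sub] at h2
  have hn1 : (1 : ℤ) ≤ n := by exact_mod_cast hnpos
  have h3 : ((l : ℤ) + 1) ≤ ((l : ℤ) + 1) * n := by
    have : (0 : ℤ) ≤ (l : ℤ) + 1 := by positivity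
    nlinarith
  have hpos : 0 < ell ((l : ℤ) • B - A') := by
    have : (0 : ℤ) < ell ((l : ℤ) • B - A') := by linarith
    exact_mod_cast this
  -- a nonzero element of `L(l B - A')`
  obtain ⟨⟨z, hzmem⟩, hz⟩ := Module.finrank_pos_iff_exists_ne_zero.mp hpos
  have hz0 : z ≠ 0 := fun h => hz (Subtype.ext h)
  have hzinv : z⁻¹ ≠ 0 := inv_ne_zero hz0
  set E : Divisor K F := A' + divOf (K := K) z⁻¹ hzinv with hE
  have hEle : E ≤ (l : ℤ) • B := by
    rw [Finsupp.le_def]
    intro v
    have := mem_L_iff.mp hzmem v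
    rcases this with h | h
    · exact absurd h hz0
    · simp only [hE, Finsupp.add_apply, divOf_apply, Place.ord_inv, Finsupp.sub_apply,
        Finsupp.smul_apply, smul_eq_mul] at h ⊢
      omega
  have h4 := degree_sub_ell_mono hEle
  have h5 : ell E = ell A' := ell_add_divOf A' z⁻¹ hzinv
  have h6 : Divisor.degree E = Divisor.degree A' := by
    rw [hE, map_add, degree_divOf, add_zero]
  rw [h5, h6] at h4
  exact le_trans h4 (hseq' l)

end FF1

end Fermat.Agent.Lib.RR.H860
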